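import Fermat.Agent.S27.Dim.Top
import Fermat.Agent.S27.H566.DerEtale
import Fermat.Agent.S27.H358.SmoothDim

/-!
# Row S27, block DIM, leaf D1 (proved): `Stmt.D1 k`

A smooth connected `k`-scheme with a tangent chart of dimension `g` is smooth of relative
dimension `g`.  Uses helper358's `localDim` (`H358/SmoothDim.lean`) and `H566/TangentRank.lean`,
`H566/DerEtale.lean`.
-/

set_option autoImplicit false
set_option linter.style.haveILetI false
universe u
open CategoryTheory CategoryTheory.Limits AlgebraicGeometry
open scoped TensorProduct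

namespace Fermat.Agent.S27.Dim

open Fermat.Agent.S25 Fermat.Agent.S27.H566

/-- Pushing a chart forward along an open immersion. -/
theorem appLE_image_of_isOpenImmersion {X J Y : Scheme.{u}} (j : X ⟶ J) [IsOpenImmersion j]
    (f : J ⟶ Y) (U : Y.Opens) (V' : X.Opens) (e' : V' ≤ (j ≫ f) ⁻¹ᵁ U) :
    ∃ e : j ''ᵁ V' ≤ f ⁻¹ᵁ U,
      f.appLE U (j ''ᵁ V') e = (j ≫ f).appLE U V' e' ≫ (j.appIso V').inv := by
  have e : j ''ᵁ V' ≤ f ⁻¹ᵁ U := by
    rintro _ ⟨y, hy, rfl⟩
    exact e' hy
  refine ⟨e, ?_⟩
  have he₂ : V' ≤ j ⁻¹ᵁ (j ''ᵁ V') := by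
    rw [Scheme.Hom.preimage_image_eq]
  have h1 : f.appLE U (j ''ᵁ V') e ≫ j.appLE (j ''ᵁ V') V' he₂ = (j ≫ f).appLE U V' e' :=
    Scheme.Hom.appLE_comp_appLE j f U (j ''ᵁ V') V' e he₂
  have h2 : (j.appIso V').inv ≫ j.appLE (j ''ᵁ V') V' he₂ = 𝟙 _ := by
    rw [Scheme.Hom.appIso_inv_appLE]
    exact X.presheaf.map_id _
  have h3 : j.appLE (j ''ᵁ V') V' he₂ = (j.appIso V').hom := by
    rw [← cancel_epi (j.appIso V').inv, h2, Iso.inv_hom_id]
  rw [← h1, h3, Category.assoc, Iso.hom_inv_id, Category.comp_id]

end Fermat.Agent.S27.Dim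

namespace Fermat.Agent.S27.Dim

open Fermat.Agent.S25 Fermat.Agent.S27.H566

/-- Algebra core of D1: a smooth `k`-algebra with a `k`-point of tangent dimension `g` has a
localization away from an element (not vanishing at the point) which is standard smooth of
relative dimension `g`. -/
theorem exists_away_isStandardSmoothOfRelativeDimension {k R : Type u} [Field k] [CommRing R]
    [Algebra k R] (hsm : (algebraMap k R).Smooth) (x : R →ₐ[k] k) (g : ℕ)
    (hx : TangentDim x g) :
    ∃ r : R, x r ≠ 0 ∧ Nontrivial (Localization.Away r) ∧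
      Algebra.IsStandardSmoothOfRelativeDimension g k (Localization.Away r) := by
  rw [RingHom.smooth_iff_locally_isStandardSmooth] at hsm
  obtain ⟨s, hs_span, hs_P⟩ := hsm
  obtain ⟨r, hr, hxr⟩ : ∃ r ∈ s, x r ≠ 0 := by
    by_contra hcon
    push Not at hcon
    have hle : Ideal.span s ≤ RingHom.ker x.toRingHom :=
      Ideal.span_le.mpr (fun t ht => by
        show t ∈ RingHom.ker x.toRingHom
        rw [RingHom.mem_ker]
        exact hcon t ht)
    rw [hs_span] at hle
    have h1 : (1 : R) ∈ RingHom.ker x.toRingHom := hle trivial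
    rw [RingHom.mem_ker] at h1
    have : (x.toRingHom 1 : k) = 1 := map_one _
    rw [this] at h1
    exact one_ne_zero h1
  refine ⟨r, hxr, ?_⟩
  suffices h : Algebra.IsStandardSmoothOfRelativeDimension g k (Localization.Away r) from
    ⟨(IsLocalization.Away.liftAlgHom (S := Localization.Away r) r (f := x)
      (IsUnit.mk0 _ hxr)).toRingHom.domain_nontrivial, h⟩
  have hstd : Algebra.IsStandardSmooth k (Localization.Away r) := by
    rw [← RingHom.isStandardSmooth_algebraMap, IsScalarTower.algebraMap_eq k R (Localization.Away r)]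
    exact hs_P r hr
  let x' : Localization.Away r →ₐ[k] k :=
    IsLocalization.Away.liftAlgHom (S := Localization.Away r) r (f := x) (IsUnit.mk0 _ hxr)
  have hx' : pointRestrict (R := R) x' = x := by
    ext a
    show IsLocalization.Away.lift r (IsUnit.mk0 _ hxr) (algebraMap R (Localization.Away r) a) = x a
    exact IsLocalization.Away.lift_eq r (IsUnit.mk0 _ hxr) a
  haveI : Algebra.FormallyEtale R (Localization.Away r) :=
    Algebra.FormallyEtale.of_isLocalization (Submonoid.powers r)
  have hfin := finrank_derivation_of_formallyEtale (R := R) x'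
  rw [hx'] at hfin
  exact isStandardSmoothOfRelativeDimension_of_finrank_derivation x' g (hfin.trans hx)

/-- **D1** (chart form): a smooth connected `k`-scheme with a tangent chart of dimension `g` is
smooth of relative dimension `g`. -/
theorem d1 (k : Type u) [Field k] : Stmt.D1 k := by
  intro J f g hs hconn hT
  obtain ⟨R, _, _, j, hjo, hj, x, hx⟩ := hT
  haveI := hs
  haveI := hjo
  haveI := hconn
  have hsm : Smooth (specStr k R) := by
    rw [← hj]
    infer_instance
  have h1 : (algebraMap k R).Smooth := (HasRingHomProperty.Spec_iff (P := @Smooth)).mp hsm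
  obtain ⟨r, hxr, hnt, hstd⟩ := exists_away_isStandardSmoothOfRelativeDimension h1 x g hx
  haveI : IsOpenImmersion (Spec.map (CommRingCat.ofHom (algebraMap R (Localization.Away r)))) :=
    IsOpenImmersion.of_isLocalization r
  let j' : Spec (CommRingCat.of (Localization.Away r)) ⟶ J :=
    Spec.map (CommRingCat.ofHom (algebraMap R (Localization.Away r))) ≫ j
  have hj' : j' ≫ f = specStr k (Localization.Away r) := by
    show (Spec.map _ ≫ j) ≫ f = _
    rw [Category.assoc, hj, specStr, specStr, ← Spec.map_comp, ← CommRingCat.ofHom_comp,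
      IsScalarTower.algebraMap_eq k R (Localization.Away r)]
  have hS : SmoothOfRelativeDimension g (j' ≫ f) := by
    rw [hj', specStr, HasRingHomProperty.Spec_iff (P := @SmoothOfRelativeDimension g)]
    exact RingHom.locally_of RingHom.isStandardSmoothOfRelativeDimension_respectsIso _
      ((RingHom.isStandardSmoothOfRelativeDimension_algebraMap g).mpr hstd)
  obtain ⟨p⟩ : Nonempty (Spec (CommRingCat.of (Localization.Away r))) :=
    inferInstanceAs (Nonempty (PrimeSpectrum (Localization.Away r)))
  obtain ⟨U, hU, V', hV', hp, e', h'⟩ :=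
    hS.exists_isStandardSmoothOfRelativeDimension p
  obtain ⟨e, he⟩ := appLE_image_of_isOpenImmersion j' f U V' e'
  have hchart : (f.appLE U (j' ''ᵁ V') e).hom.IsStandardSmoothOfRelativeDimension g := by
    rw [he]
    exact RingHom.isStandardSmoothOfRelativeDimension_respectsIso.left _
      (j'.appIso V').symm.commRingCatIsoToRingEquiv h'
  have hz : H358.localDim f (j' p) = g :=
    H358.localDim_eq_of_chart f (j' p) U (j' ''ᵁ V') (hV'.image_of_isOpenImmersion j')
      ⟨p, hp, rfl⟩ e g hchart
  exact H358.smoothOfRelativeDimension_of_localDim f (j' p) g hz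

/-- **DIM from TAN alone**: the block statement follows from a tangent chart of the Jacobian. -/
theorem main_of_tan_d1 (k : Type u) [Field k] (hTan : Stmt.Tan k) : Stmt.Main k :=
  main_of_tan k (d1 k) hTan

end Fermat.Agent.S27.Dim
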