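import Fermat.Agent.S27.Dim.TanGlue
import Fermat.Agent.S27.H565.ChartLoc
import Fermat.Agent.S27.H446.PtsDictA
import Fermat.Agent.S27.H550.Twist
import Fermat.Agent.S27.Spec

/-!
# Row S27, block DIM: DONE

* `tan  : Dim.Stmt.Tan k`  — the Jacobian has a tangent chart of dimension `dim Ȟ¹(unit)`.
* `main : Dim.Stmt.Main k` — the Jacobian is smooth of relative dimension `dim Ȟ¹(unit)`.
* `dim  : Stmt.Dim k`      — the leaf DIM of the row S27 (helper87's `Spec.lean`), verbatim.

Leaves: `H565.chartAt`, `H565.loc` (helper565), `H446.ptsDictA` (helper446), `H550.twist`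
(helper550), `H358` `localDim` (helper358); glue `Dim/{Top,D1,TanGlue}.lean` (helper566).
-/

set_option autoImplicit false
universe u
open CategoryTheory CategoryTheory.Limits AlgebraicGeometry AlgebraicGeometry.RelPicard
  NeronModelInfra GoodReductionJacobian
open scoped TensorProduct

namespace Fermat.Agent.S27.Dim

open Fermat.Agent.S25

/-- **TAN.** -/
theorem tan (k : Type u) [Field k] : Stmt.Tan k :=
  tan_of_leaves k (H565.chartAt k) (H565.loc k) (H446.ptsDictA k)
    (fun B₀ B₁ B₀₁ _ _ _ _ _ _ _ _ _ _ => H550.twist k B₀ B₁ B₀₁)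

/-- **DIM**, block form. -/
theorem main (k : Type u) [Field k] : Stmt.Main k := main_of_tan_d1 k (tan k)

/-- **DIM**: the leaf `Stmt.Dim k` of the row S27, verbatim. -/
theorem dim (k : Type u) [Field k] : Fermat.Agent.S27.Stmt.Dim k :=
  fun c _ _ _ ε Ch D hrep hs hp hc => main k c ε Ch D hrep hs hp hc

end Fermat.Agent.S27.Dim
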