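import Fermat.Prelude.Def_GoodReductionJacobian_RelativeGroupLawKernel
import Fermat.Agent.S25.DefsDict
import Fermat.Agent.S27.H566.TangentRank

/-!
# Row S27, block DIM (the Jacobian has relative dimension `dim Ȟ¹(O)`): frozen interface

Sub-architect: helper566 (subtask 625).  Board: `coord/S27-DIM.md` (origin/helper566).

Only DEFINITIONS (mostly of `Prop`s); nothing is proved, nothing is assumed.  This file does not
import `Fermat/Agent/S27/Spec.lean`: the final statement `Stmt.Main k` below is, after unfolding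
`chartGenus`, the leaf `Stmt.Dim k` of the row architecture.

## Route (`Top.lean` proves the glue)

`Main  ⇐  D1 + Tan`   and   `Tan  ⇐  ChartAt + Loc + PtsDictA + Twist`
(+ the base change lemmas of S25 `H265/GDCCurve.lean`, on main).

* `HasTangentChart f g` : some affine open chart `Spec R ⊆ J` has a `k`-point `x` with
  `dim_k Der_k(R, k_x) = g`.
* `D1` (Mathlib only): smooth + connected + `HasTangentChart f g` ⇒ relative dimension `g`.
* `Tan`: the Jacobian has a tangent chart of dimension `dim_k Ȟ¹(unit datum over k)`.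
  Route A (deformations): the points of `J` with values in `k ⊕ V` (`V` a `k`-vector space,
  `TrivSqZeroExt k V`) lifting `0` are the gluing data `unit twisted by 1 + ξ`, `ξ ∈ V ⊗ B₀₁`;
  the universal tangent vector `R → k ⊕ Der^*` makes the bijection `Der ≃ Ȟ¹` linear.
  Route B (Hilbert charts, helper671) may prove `Tan` directly.
-/

set_option autoImplicit false
set_option linter.style.haveILetI false
universe u
open CategoryTheory CategoryTheory.Limits AlgebraicGeometry AlgebraicGeometry.RelPicard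
  NeronModelInfra GoodReductionJacobian
open scoped TensorProduct

namespace Fermat.Agent.S27.Dim

open Fermat.Agent.S25 Fermat.Agent.S27.H566

noncomputable section

/-! ## Tangent charts -/

/-- The tangent space `Der_k(R, k_x)` of `Spec R` at the `k`-point `x` has dimension `g`. -/
def TangentDim {k R : Type u} [Field k] [CommRing R] [Algebra k R] (x : R →ₐ[k] k) (g : ℕ) :
    Prop :=
  letI := pointModule x
  haveI := pointModule_isScalarTower x
  haveI := pointModule_smulCommClass x
  Module.finrank k (Derivation k R k) = g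

/-- `J` has an affine open chart `j : Spec R ↪ J` (over `k`) with a `k`-point at which the
tangent space has dimension `g`. -/
def HasTangentChart {k : Type u} [Field k] {J : Scheme.{u}} (f : J ⟶ Spec (CommRingCat.of k))
    (g : ℕ) : Prop :=
  ∃ (R : Type u) (_ : CommRing R) (_ : Algebra k R) (j : Spec (CommRingCat.of R) ⟶ J)
    (_ : IsOpenImmersion j) (_ : j ≫ f = specStr k R) (x : R →ₐ[k] k), TangentDim x g

/-! ## Square-zero extensions `k ⊕ V` -/

section Tsz

variable (k : Type u) [Field k] (V : Type u) [AddCommGroup V] [Module k V] [Module kᵐᵒᵖ V]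
  [IsCentralScalar k V]

/-- The augmentation `k ⊕ V → k`. -/
abbrev augHom : TrivSqZeroExt k V →ₐ[k] k := TrivSqZeroExt.fstHom k k V

/-- The structure map `k → k ⊕ V` as an algebra homomorphism. -/
abbrev inlHom : k →ₐ[k] TrivSqZeroExt k V := TrivSqZeroExt.inlAlgHom k k V

end Tsz

/-- The unit gluing datum over `k` of a chart. -/
abbrev unitK (k B₀ B₁ B₀₁ : Type u) [Field k] [CommRing B₀] [CommRing B₁] [CommRing B₀₁]
    [Algebra k B₀] [Algebra k B₁] [Algebra k B₀₁] [Algebra B₀ B₀₁] [Algebra B₁ B₀₁]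
    [IsScalarTower k B₀ B₀₁] [IsScalarTower k B₁ B₀₁] : CurveGD k B₀ B₁ B₀₁ k :=
  GlueDatum.unit k (k ⊗[k] B₀) (k ⊗[k] B₁) (k ⊗[k] B₀₁)

/-- The zero section of the Jacobian as a point over `specStr k k`. -/
def zeroPt {k : Type u} [Field k] {C : Scheme.{u}} {c : C ⟶ Spec (CommRingCat.of k)}
    (D : RelativePic0Designation k c) : SchemeHomOver (specStr k k) D.toBase :=
  ⟨D.zeroSection, D.zeroSection_toBase.trans (by
    rw [specStr, Algebra.algebraMap_self]
    exact (Spec.map_id _).symm)⟩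

namespace Stmt

/-! ## Mathlib-only leaves -/

section Scheme

variable (k : Type u) [Field k]

/-- **D1** (Mathlib only): a smooth connected `k`-scheme with a tangent chart of dimension `g`
is smooth of relative dimension `g`. -/
def D1 : Prop :=
  ∀ {J : Scheme.{u}} (f : J ⟶ Spec (CommRingCat.of k)) (g : ℕ), Smooth f → ConnectedSpace J →
    HasTangentChart f g → SmoothOfRelativeDimension g f

/-- **CHART-AT** (Mathlib only): every `k`-point of a `k`-scheme lies in an affine open chart. -/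
def ChartAt : Prop :=
  ∀ {J : Scheme.{u}} (f : J ⟶ Spec (CommRingCat.of k)) (z : Spec (CommRingCat.of k) ⟶ J),
    z ≫ f = 𝟙 _ →
    ∃ (R : Type u) (_ : CommRing R) (_ : Algebra k R) (j : Spec (CommRingCat.of R) ⟶ J)
      (_ : IsOpenImmersion j) (x : R →ₐ[k] k),
      j ≫ f = specStr k R ∧ Spec.map (CommRingCat.ofHom x.toRingHom) ≫ j = z

/-- **LOC** (Mathlib only): a point of `J` with values in an augmented `k`-algebra `A → k` with
nil kernel, whose restriction to `k` lies in the chart `Spec R`, lies in the chart. -/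
def Loc : Prop :=
  ∀ {J : Scheme.{u}} (f : J ⟶ Spec (CommRingCat.of k)) (R : Type u) [CommRing R] [Algebra k R]
    (j : Spec (CommRingCat.of R) ⟶ J) [IsOpenImmersion j] (_ : j ≫ f = specStr k R)
    (x : R →ₐ[k] k) (A : Type u) [CommRing A] [Algebra k A] (π : A →ₐ[k] k)
    (_ : ∀ a ∈ RingHom.ker π.toRingHom, IsNilpotent a)
    (t : SchemeHomOver (specStr k A) f),
    Spec.map (CommRingCat.ofHom π.toRingHom) ≫ t.1 =
      Spec.map (CommRingCat.ofHom x.toRingHom) ≫ j →
    ∃ φ : R →ₐ[k] A, t.1 = Spec.map (CommRingCat.ofHom φ.toRingHom) ≫ j ∧ π.comp φ = x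

end Scheme

/-! ## The points of the Jacobian with values in any `k`-algebra -/

section Points

variable (k : Type u) [Field k]

/-- **PTS-DICT-A**: for every `k`-algebra `A`, the `A`-points of the Jacobian are the
rigidifiable gluing data of degree zero over `A` up to isomorphism, compatibly with base
change; the zero section is the unit datum.  (Formal from the S25 dictionary on main:
`H505.dictSections`, `H505.dictGlue`, `H986.dictIso`, `H505.dictBC`, `Stmt.DictDeg`,
`H566.dictUnit`, and `hrep.univ`, `hrep.ext_of_iso`, `hrep.zero`.) -/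
def PtsDictA : Prop :=
  ∀ [IsAlgClosed k] {C : Scheme.{u}} (c : C ⟶ Spec (CommRingCat.of k))
    [IsProper c] [SmoothOfRelativeDimension 1 c] [IsIntegral C]
    (ε : SchemeHomOver (𝟙 (Spec (CommRingCat.of k))) c) (Ch : ChartOf c ε)
    (D : RelativePic0Designation k c)
    (hrep : RepresentsRelSubPic c ε (algEquivZeroCut c ε) D),
    (∀ (A : Type u) [CommRing A] [Algebra k A] (t : SchemeHomOver (specStr k A) D.toBase),
      ∃ G : CurveGD k Ch.B₀ Ch.B₁ Ch.B₀₁ A, Corr Ch A (hrep.poincare.pullbackAlong t).L G) ∧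
    (∀ (A : Type u) [CommRing A] [Algebra k A] (G : CurveGD k Ch.B₀ Ch.B₁ Ch.B₀₁ A),
      G.Rigidifiable Ch.e → G.Deg0 →
      ∃ t : SchemeHomOver (specStr k A) D.toBase,
        Corr Ch A (hrep.poincare.pullbackAlong t).L G) ∧
    (∀ (A : Type u) [CommRing A] [Algebra k A] (t t' : SchemeHomOver (specStr k A) D.toBase)
      (G G' : CurveGD k Ch.B₀ Ch.B₁ Ch.B₀₁ A),
      Corr Ch A (hrep.poincare.pullbackAlong t).L G →
      Corr Ch A (hrep.poincare.pullbackAlong t').L G' → (t = t' ↔ G.IsIso G')) ∧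
    (∀ (A A' : Type u) [CommRing A] [Algebra k A] [CommRing A'] [Algebra k A']
      (φ : A →ₐ[k] A') (t : SchemeHomOver (specStr k A) D.toBase)
      (G : CurveGD k Ch.B₀ Ch.B₁ Ch.B₀₁ A) (G' : CurveGD k Ch.B₀ Ch.B₁ Ch.B₀₁ A'),
      Corr Ch A (hrep.poincare.pullbackAlong t).L G → CurveGD.IsBC φ G G' →
      Corr Ch A' (hrep.poincare.pullbackAlong (postComp t (specHomOver k φ))).L G') ∧
    Corr Ch k (hrep.poincare.pullbackAlong (zeroPt D)).L (unitK k Ch.B₀ Ch.B₁ Ch.B₀₁)

end Points

/-! ## Pure algebra -/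

section Algebra

variable (k B₀ B₁ B₀₁ : Type u) [Field k] [CommRing B₀] [CommRing B₁] [CommRing B₀₁]
  [Algebra k B₀] [Algebra k B₁] [Algebra k B₀₁] [Algebra B₀ B₀₁] [Algebra B₁ B₀₁]
  [IsScalarTower k B₀ B₀₁] [IsScalarTower k B₁ B₀₁]

/-- **TWIST** (pure algebra, = D3): first-order deformations of the unit gluing datum.
`tw V ξ` is the unit datum over `k ⊕ V` with `r₁` twisted by the unit `1 + ξ`,
`ξ ∈ V ⊗ B₀₁ ⊆ (k ⊕ V) ⊗ B₀₁`.
* `rig`, `deg0`: it is rigidifiable and of degree zero;
* `red`: its reduction along `k ⊕ V → k` is the unit datum;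
* `ex`: every datum over `k ⊕ V` whose reduction is isomorphic to the unit datum is
  isomorphic to some `tw V ξ`;
* `bc`: base change along `k ⊕ V → k ⊕ V'` induced by a linear map `δ : V → V'`;
* `zero`: `tw k 0` is the base change of the unit datum along `k → k[ε]`;
* `iso`: over the dual numbers, `tw k ξ ≅ tw k ξ'` iff `ξ` and `ξ'` have the same class in
  `Ȟ¹` of the unit datum over `k`. -/
def Twist : Prop :=
  ∀ [IsAlgClosed k] (x : B₀) (y : B₁) (e : B₁ →ₐ[k] k), IsCurveChart k B₀ B₁ B₀₁ x y e →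
    ∃ tw : ∀ (V : Type u) [AddCommGroup V] [Module k V] [Module kᵐᵒᵖ V] [IsCentralScalar k V],
        (V ⊗[k] B₀₁) → CurveGD k B₀ B₁ B₀₁ (TrivSqZeroExt k V),
      (∀ (V : Type u) [AddCommGroup V] [Module k V] [Module kᵐᵒᵖ V] [IsCentralScalar k V]
        (ξ : V ⊗[k] B₀₁), (tw V ξ).Rigidifiable e ∧ (tw V ξ).Deg0 ∧
          CurveGD.IsBC (augHom k V) (tw V ξ) (unitK k B₀ B₁ B₀₁)) ∧
      (∀ (V : Type u) [AddCommGroup V] [Module k V] [Module kᵐᵒᵖ V] [IsCentralScalar k V]
        (G : CurveGD k B₀ B₁ B₀₁ (TrivSqZeroExt k V)) (G' : CurveGD k B₀ B₁ B₀₁ k),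
        CurveGD.IsBC (augHom k V) G G' → G'.IsIso (unitK k B₀ B₁ B₀₁) →
          ∃ ξ : V ⊗[k] B₀₁, G.IsIso (tw V ξ)) ∧
      (∀ (V : Type u) [AddCommGroup V] [Module k V] [Module kᵐᵒᵖ V] [IsCentralScalar k V]
        (V' : Type u) [AddCommGroup V'] [Module k V'] [Module kᵐᵒᵖ V'] [IsCentralScalar k V']
        (δ : V →ₗ[k] V') (ξ : V ⊗[k] B₀₁),
        CurveGD.IsBC (TrivSqZeroExt.map δ) (tw V ξ) (tw V' (LinearMap.rTensor B₀₁ δ ξ))) ∧
      CurveGD.IsBC (inlHom k k) (unitK k B₀ B₁ B₀₁) (tw k 0) ∧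
      ∀ ξ ξ' : k ⊗[k] B₀₁, (tw k ξ).IsIso (tw k ξ') ↔
        (Submodule.Quotient.mk ξ : (unitK k B₀ B₁ B₀₁).H1) = Submodule.Quotient.mk ξ'

end Algebra

/-! ## The tangent space of the Jacobian, and the block statement -/

section Jac

variable (k : Type u) [Field k]

/-- **TAN**: the Jacobian has a tangent chart of dimension `dim_k Ȟ¹(unit datum)`. -/
def Tan : Prop :=
  ∀ [IsAlgClosed k] {C : Scheme.{u}} (c : C ⟶ Spec (CommRingCat.of k))
    [IsProper c] [SmoothOfRelativeDimension 1 c] [IsIntegral C]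
    (ε : SchemeHomOver (𝟙 (Spec (CommRingCat.of k))) c) (Ch : ChartOf c ε)
    (D : RelativePic0Designation k c)
    (_ : RepresentsRelSubPic c ε (algEquivZeroCut c ε) D),
    Smooth D.toBase → IsProper D.toBase → GeometricallyConnected D.toBase →
      HasTangentChart D.toBase (Module.finrank k (unitK k Ch.B₀ Ch.B₁ Ch.B₀₁).H1)

/-- **MAIN** (= the leaf `Stmt.Dim k` of the row): the Jacobian of a curve is smooth of
relative dimension `dim_k Ȟ¹(O)`. -/
def Main : Prop :=
  ∀ [IsAlgClosed k] {C : Scheme.{u}} (c : C ⟶ Spec (CommRingCat.of k))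
    [IsProper c] [SmoothOfRelativeDimension 1 c] [IsIntegral C]
    (ε : SchemeHomOver (𝟙 (Spec (CommRingCat.of k))) c) (Ch : ChartOf c ε)
    (D : RelativePic0Designation k c)
    (_ : RepresentsRelSubPic c ε (algEquivZeroCut c ε) D),
    Smooth D.toBase → IsProper D.toBase → GeometricallyConnected D.toBase →
      SmoothOfRelativeDimension
        (Module.finrank k (GlueDatum.unit k (k ⊗[k] Ch.B₀) (k ⊗[k] Ch.B₁) (k ⊗[k] Ch.B₀₁)).H1)
        D.toBase

end Jac

end Stmt

end

end Fermat.Agent.S27.Dim
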