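import Fermat.Agent.S27.Dim.D1
import Fermat.Agent.S25.H265.GDCBaseChange

/-!
# Row S27, block DIM: the glue `tan_of_leaves` (route A, proved)

`ChartAt + Loc + PtsDictA + Twist ⇒ Tan`: the tangent space of the Jacobian at `0` is
`Ȟ¹(unit datum over k)`.

Proof.  `R, j, x` := an affine chart at the zero section.  `Der := Der_k(R, k_x)`,
`W := Module.Dual k Der`, universal tangent vector `u : R →ₐ[k] k ⊕ W`, `u r = (x r, d ↦ d r)`.
For `d : Der` the homomorphism `φ_d : R → k[ε]`, `r ↦ (x r, d r)` is `map (eval d) ∘ u`.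
The datum `G_u` of the point `Spec u ≫ j` is a twist `tw W ξ`; the datum of `Spec φ_d ≫ j` is
`tw k ((eval d ⊗ 1) ξ)`; `Φ d := [(eval d ⊗ 1) ξ] ∈ Ȟ¹` is linear, injective (`PtsDictA` 3) and
surjective (`PtsDictA` 2 + `Loc`).
-/

set_option autoImplicit false
set_option linter.style.haveILetI false
universe u
open CategoryTheory CategoryTheory.Limits AlgebraicGeometry AlgebraicGeometry.RelPicard
  NeronModelInfra GoodReductionJacobian
open scoped TensorProduct

namespace Fermat.Agent.S27.Dim

open Fermat.Agent.S25 Fermat.Agent.S27.H566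

noncomputable section

/-! ## Algebra homomorphisms into `k ⊕ V` -/

section PointHom

variable {k R : Type u} [Field k] [CommRing R] [Algebra k R]
  {V : Type u} [AddCommGroup V] [Module k V] [Module kᵐᵒᵖ V] [IsCentralScalar k V]

/-- The algebra homomorphism `R → k ⊕ V`, `r ↦ (x r, d r)` of a point derivation `d`. -/
def pointHom (x : R →ₐ[k] k) (d : R →ₗ[k] V)
    (hd : ∀ r s, d (r * s) = x r • d s + x s • d r) : R →ₐ[k] TrivSqZeroExt k V :=
  have h1 : d 1 = 0 := by
    have := hd 1 1
    rw [mul_one, map_one x, one_smul] at this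
    exact left_eq_add.mp this
  { toFun := fun r => TrivSqZeroExt.inl (x r) + TrivSqZeroExt.inr (d r)
    map_one' := by rw [map_one, h1, TrivSqZeroExt.inr_zero, add_zero, TrivSqZeroExt.inl_one]
    map_mul' := fun r s => by
      ext
      · simp
      · simp [hd, add_comm]
    map_zero' := by simp
    map_add' := fun r s => by
      ext
      · simp
      · simp
    commutes' := fun a => by
      have h2 : d (algebraMap k R a) = 0 := by
        rw [Algebra.algebraMap_eq_smul_one, map_smul, h1, smul_zero]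
      show TrivSqZeroExt.inl (x (algebraMap k R a)) + TrivSqZeroExt.inr (d (algebraMap k R a)) =
        algebraMap k (TrivSqZeroExt k V) a
      rw [h2, TrivSqZeroExt.inr_zero, add_zero, AlgHom.commutes, TrivSqZeroExt.algebraMap_eq_inl]
      rfl }

@[simp] theorem pointHom_fst (x : R →ₐ[k] k) (d : R →ₗ[k] V)
    (hd : ∀ r s, d (r * s) = x r • d s + x s • d r) (r : R) :
    (pointHom x d hd r).fst = x r := by
  simp [pointHom]

@[simp] theorem pointHom_snd (x : R →ₐ[k] k) (d : R →ₗ[k] V)
    (hd : ∀ r s, d (r * s) = x r • d s + x s • d r) (r : R) :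
    (pointHom x d hd r).snd = d r := by
  simp [pointHom]

end PointHom

/-! ## Derivations at a point and homomorphisms to the dual numbers -/

section Der

variable {k R : Type u} [Field k] [CommRing R] [Algebra k R] (x : R →ₐ[k] k)

/-- The tangent space `Der_k(R, k_x)`. -/
def PointDer : Type u :=
  letI := pointModule x
  Derivation k R k

instance instAddCommGroupPointDer : AddCommGroup (PointDer x) := by
  letI := pointModule x
  exact (inferInstance : AddCommGroup (Derivation k R k))

instance instModulePointDer : Module k (PointDer x) := by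
  letI := pointModule x
  haveI := pointModule_isScalarTower x
  haveI := pointModule_smulCommClass x
  exact (inferInstance : Module k (Derivation k R k))

/-- The function underlying a tangent vector. -/
def PointDer.app (d : PointDer x) (r : R) : k :=
  letI := pointModule x
  (show Derivation k R k from d) r

theorem PointDer.app_add (d d' : PointDer x) (r : R) :
    (d + d').app x r = d.app x r + d'.app x r := rfl

theorem PointDer.app_smul (a : k) (d : PointDer x) (r : R) :
    (a • d).app x r = a * d.app x r := rfl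

theorem PointDer.app_zero (r : R) : (0 : PointDer x).app x r = 0 := rfl

theorem PointDer.ext {d d' : PointDer x} (h : ∀ r, d.app x r = d'.app x r) : d = d' := by
  letI := pointModule x
  exact Derivation.ext (D1 := (show Derivation k R k from d)) (D2 := d') h

/-- Leibniz rule of a tangent vector. -/
theorem PointDer.app_mul (d : PointDer x) (r s : R) :
    d.app x (r * s) = x r • d.app x s + x s • d.app x r := by
  letI := pointModule x
  exact (show Derivation k R k from d).leibniz r s

/-- The `k`-linear map underlying a tangent vector. -/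
def PointDer.lin (d : PointDer x) : R →ₗ[k] k :=
  letI := pointModule x
  (show Derivation k R k from d).toLinearMap

@[simp] theorem PointDer.lin_apply (d : PointDer x) (r : R) : d.lin x r = d.app x r := rfl

/-- The homomorphism `R → k[ε]`, `r ↦ x r + ε d r` of a tangent vector `d`. -/
def derHom (d : PointDer x) : R →ₐ[k] TrivSqZeroExt k k :=
  pointHom x (d.lin x) (d.app_mul x)

@[simp] theorem derHom_fst (d : PointDer x) (r : R) : (derHom x d r).fst = x r :=
  pointHom_fst _ _ _ r

@[simp] theorem derHom_snd (d : PointDer x) (r : R) : (derHom x d r).snd = d.app x r :=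
  pointHom_snd _ _ _ r

theorem derHom_injective : Function.Injective (derHom x) := by
  intro d d' h
  refine PointDer.ext x fun r => ?_
  rw [← derHom_snd, ← derHom_snd, h]

/-- The tangent vector of a homomorphism `R → k[ε]` lifting `x`. -/
def derOfHom (φ : R →ₐ[k] TrivSqZeroExt k k) (hφ : (augHom k k).comp φ = x) : PointDer x :=
  letI := pointModule x
  haveI := pointModule_isScalarTower x
  have hfst : ∀ r, (φ r).fst = x r := fun r => by
    rw [← hφ]; rfl
  (show Derivation k R k from
    { toLinearMap :=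
        { toFun := fun r => (φ r).snd
          map_add' := fun r s => by rw [map_add, TrivSqZeroExt.snd_add]
          map_smul' := fun a r => by rw [map_smul, TrivSqZeroExt.snd_smul]; rfl }
      map_one_eq_zero' := by
        show (φ 1).snd = 0
        rw [map_one, TrivSqZeroExt.snd_one]
      leibniz' := fun r s => by
        show (φ (r * s)).snd = x r * (φ s).snd + x s * (φ r).snd
        rw [map_mul, TrivSqZeroExt.snd_mul, hfst, hfst]
        simp [mul_comm] })

theorem derHom_derOfHom (φ : R →ₐ[k] TrivSqZeroExt k k) (hφ : (augHom k k).comp φ = x) :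
    derHom x (derOfHom x φ hφ) = φ := by
  apply AlgHom.ext
  intro r
  apply TrivSqZeroExt.ext
  · rw [derHom_fst, ← hφ]; rfl
  · rw [derHom_snd]; rfl

/-- Evaluation at `r`, a linear form on the tangent space. -/
def evalAt (r : R) : Module.Dual k (PointDer x) where
  toFun := fun d => d.app x r
  map_add' := fun _ _ => rfl
  map_smul' := fun _ _ => rfl

@[simp] theorem evalAt_apply (r : R) (d : PointDer x) : evalAt x r d = d.app x r := rfl

/-- The universal point derivation `R → Der^*`. -/
def univLin : R →ₗ[k] Module.Dual k (PointDer x) where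
  toFun := evalAt x
  map_add' := fun r s => by
    ext d
    letI := pointModule x
    exact Derivation.map_add (show Derivation k R k from d) r s
  map_smul' := fun a r => by
    ext d
    letI := pointModule x
    exact Derivation.map_smul (show Derivation k R k from d) a r

theorem univLin_mul (r s : R) :
    univLin x (r * s) = x r • univLin x s + x s • univLin x r := by
  ext d
  exact d.app_mul x r s

/-- The universal tangent vector `u : R → k ⊕ Der^*`, `r ↦ (x r, d ↦ d r)`. -/
def univHom : R →ₐ[k] TrivSqZeroExt k (Module.Dual k (PointDer x)) :=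
  pointHom x (univLin x) (univLin_mul x)

/-- `φ_d = map (eval d) ∘ u`. -/
theorem map_eval_comp_univHom (d : PointDer x) :
    (TrivSqZeroExt.map (Module.Dual.eval k (PointDer x) d)).comp (univHom x) = derHom x d := by
  apply AlgHom.ext
  intro r
  apply TrivSqZeroExt.ext
  · simp [univHom]
  · simp [univHom, univLin]

theorem augHom_comp_univHom :
    (augHom k (Module.Dual k (PointDer x))).comp (univHom x) = x := by
  apply AlgHom.ext
  intro r
  exact pointHom_fst x (univLin x) (univLin_mul x) r

theorem augHom_comp_derHom (d : PointDer x) : (augHom k k).comp (derHom x d) = x := by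
  apply AlgHom.ext
  intro r
  exact pointHom_fst x (d.lin x) (d.app_mul x) r

/-- The tangent space as defined in `TangentDim`. -/
theorem tangentDim_iff (g : ℕ) : TangentDim x g ↔ Module.finrank k (PointDer x) = g :=
  Iff.rfl

end Der

/-! ## The algebraic core: a chart with a universal datum -/

section Core

variable {k : Type u} [Field k] [IsAlgClosed k] {R : Type u} [CommRing R] [Algebra k R]
  (x : R →ₐ[k] k)
  {B₀ B₁ B₀₁ : Type u} [CommRing B₀] [CommRing B₁] [CommRing B₀₁]
  [Algebra k B₀] [Algebra k B₁] [Algebra k B₀₁] [Algebra B₀ B₀₁] [Algebra B₁ B₀₁]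
  [IsScalarTower k B₀ B₀₁] [IsScalarTower k B₁ B₀₁]

/-- **Algebraic core of TAN.**  `Dat A φ G` : "`G` is the gluing datum of the `A`-point `φ` of
the chart `Spec R`".  If every point has a datum (`P1`), data determine points (`P3`), are
compatible with base change (`P4`), the point `x` has the unit datum (`P5`) and every first order
deformation of the unit datum comes from a point above `x` (`P2`), then the tangent space of
`Spec R` at `x` has the dimension of `Ȟ¹` of the unit datum. -/
theorem finrank_pointDer_of_dat (x₀ : B₀) (y₀ : B₁) (e : B₁ →ₐ[k] k)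
    (hC : IsCurveChart k B₀ B₁ B₀₁ x₀ y₀ e) (hTw : Stmt.Twist k B₀ B₁ B₀₁)
    (Dat : ∀ (A : Type u) [CommRing A] [Algebra k A], (R →ₐ[k] A) → CurveGD k B₀ B₁ B₀₁ A → Prop)
    (P1 : ∀ (A : Type u) [CommRing A] [Algebra k A] (φ : R →ₐ[k] A), ∃ G, Dat A φ G)
    (P3 : ∀ (A : Type u) [CommRing A] [Algebra k A] (φ ψ : R →ₐ[k] A)
      (G G' : CurveGD k B₀ B₁ B₀₁ A), Dat A φ G → Dat A ψ G' → (φ = ψ ↔ G.IsIso G'))
    (P4 : ∀ (A A' : Type u) [CommRing A] [Algebra k A] [CommRing A'] [Algebra k A']
      (χ : A →ₐ[k] A') (φ : R →ₐ[k] A) (G : CurveGD k B₀ B₁ B₀₁ A)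
      (G' : CurveGD k B₀ B₁ B₀₁ A'), Dat A φ G → CurveGD.IsBC χ G G' → Dat A' (χ.comp φ) G')
    (P5 : Dat k x (unitK k B₀ B₁ B₀₁))
    (P2 : ∀ G : CurveGD k B₀ B₁ B₀₁ (TrivSqZeroExt k k), G.Rigidifiable e → G.Deg0 →
      CurveGD.IsBC (augHom k k) G (unitK k B₀ B₁ B₀₁) →
      ∃ φ : R →ₐ[k] TrivSqZeroExt k k, (augHom k k).comp φ = x ∧ Dat _ φ G) :
    Module.finrank k (PointDer x) = Module.finrank k (unitK k B₀ B₁ B₀₁).H1 := by
  obtain ⟨tw, htw1, htw2, htw3, -, htw5⟩ := hTw x₀ y₀ e hC
  -- the universal datum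
  obtain ⟨Gu, hGu⟩ := P1 _ (univHom x)
  obtain ⟨G₀, hG₀⟩ := H265.curveGD_exists_isBC (augHom k (Module.Dual k (PointDer x))) Gu
  have hG₀' : Dat k x G₀ := by
    have := P4 _ _ (augHom k (Module.Dual k (PointDer x))) (univHom x) Gu G₀ hGu hG₀
    rwa [augHom_comp_univHom] at this
  have hiso₀ : G₀.IsIso (unitK k B₀ B₁ B₀₁) := (P3 k x x G₀ _ hG₀' P5).mp rfl
  obtain ⟨ξ, hξ⟩ := htw2 _ Gu G₀ hG₀ hiso₀
  -- the datum of `φ_d`
  have key : ∀ d : PointDer x, Dat _ (derHom x d)
      (tw k (LinearMap.rTensor B₀₁ (Module.Dual.eval k (PointDer x) d) ξ)) := by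
    intro d
    have hbc := H265.curveGD_isBC_of_isIso_left (H265.isIso_symm hξ)
      (htw3 _ k (Module.Dual.eval k (PointDer x) d) ξ)
    have := P4 _ _ (TrivSqZeroExt.map (Module.Dual.eval k (PointDer x) d)) (univHom x) Gu _
      hGu hbc
    rwa [map_eval_comp_univHom] at this
  -- the Kodaira–Spencer map
  let Φ : PointDer x →ₗ[k] (unitK k B₀ B₁ B₀₁).H1 :=
    { toFun := fun d => Submodule.Quotient.mk
        (LinearMap.rTensor B₀₁ (Module.Dual.eval k (PointDer x) d) ξ)
      map_add' := fun d d' => by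
        rw [map_add, LinearMap.rTensor_add, LinearMap.add_apply]
        rfl
      map_smul' := fun a d => by
        rw [map_smul, LinearMap.rTensor_smul, LinearMap.smul_apply]
        rfl }
  have hΦ : ∀ d, Φ d = Submodule.Quotient.mk
      (LinearMap.rTensor B₀₁ (Module.Dual.eval k (PointDer x) d) ξ) := fun _ => rfl
  have hbij : Function.Bijective Φ := by
    constructor
    · intro d d' h
      rw [hΦ, hΦ] at h
      have h1 := (htw5 _ _).mpr h
      have h2 := (P3 _ _ _ _ _ (key d) (key d')).mpr h1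
      exact derHom_injective x h2
    · intro η
      obtain ⟨ξ', rfl⟩ := Submodule.Quotient.mk_surjective _ η
      obtain ⟨hrig, hdeg, hred⟩ := htw1 k ξ'
      obtain ⟨φ, hφ, hDat⟩ := P2 (tw k ξ') hrig hdeg hred
      refine ⟨derOfHom x φ hφ, ?_⟩
      rw [hΦ]
      have h1 := key (derOfHom x φ hφ)
      rw [derHom_derOfHom] at h1
      exact (htw5 _ _).mp ((P3 _ _ _ _ _ h1 hDat).mp rfl)
  exact (LinearEquiv.ofBijective Φ hbij).finrank_eq

end Core

/-! ## The glue -/

section Glue

variable (k : Type u) [Field k]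

/-- The augmentation `k[ε] → k` has nil kernel. -/
theorem augHom_ker_nil (a : TrivSqZeroExt k k)
    (ha : a ∈ RingHom.ker (augHom k k).toRingHom) : IsNilpotent a := by
  have h0 : a.fst = 0 := ha
  refine ⟨2, ?_⟩
  rw [pow_two]
  apply TrivSqZeroExt.ext
  · rw [TrivSqZeroExt.fst_mul, h0, zero_mul, TrivSqZeroExt.fst_zero]
  · rw [TrivSqZeroExt.snd_mul, h0, zero_smul, TrivSqZeroExt.snd_zero]
    simp

/-- **TAN from the leaves** (route A). -/
theorem tan_of_leaves (hChart : Stmt.ChartAt k) (hLoc : Stmt.Loc k) (hPts : Stmt.PtsDictA k)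
    (hTw : ∀ (B₀ B₁ B₀₁ : Type u) [CommRing B₀] [CommRing B₁] [CommRing B₀₁] [Algebra k B₀]
      [Algebra k B₁] [Algebra k B₀₁] [Algebra B₀ B₀₁] [Algebra B₁ B₀₁] [IsScalarTower k B₀ B₀₁]
      [IsScalarTower k B₁ B₀₁], Stmt.Twist k B₀ B₁ B₀₁) : Stmt.Tan k := by
  intro _ C c _ _ _ ε Ch D hrep hs hp hc
  obtain ⟨R, iR, iA, j, hjo, x, hj, hz⟩ := hChart D.toBase D.zeroSection D.zeroSection_toBase
  refine ⟨R, iR, iA, j, hjo, hj, x, ?_⟩
  obtain ⟨h1, h2, h3, h4, h5⟩ := hPts c ε Ch D hrep
  rw [tangentDim_iff]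
  -- the point of `D` attached to a homomorphism `R → A`
  let pt : ∀ (A : Type u) [CommRing A] [Algebra k A], (R →ₐ[k] A) →
      SchemeHomOver (specStr k A) D.toBase :=
    fun A _ _ φ => postComp (⟨j, hj⟩ : SchemeHomOver (specStr k R) D.toBase) (specHomOver k φ)
  have pt_val : ∀ (A : Type u) [CommRing A] [Algebra k A] (φ : R →ₐ[k] A),
      (pt A φ).1 = Spec.map (CommRingCat.ofHom φ.toRingHom) ≫ j := fun _ _ _ _ => rfl
  have pt_inj : ∀ (A : Type u) [CommRing A] [Algebra k A] (φ ψ : R →ₐ[k] A),
      pt A φ = pt A ψ → φ = ψ := by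
    intro A _ _ φ ψ h
    have h1 : Spec.map (CommRingCat.ofHom φ.toRingHom) ≫ j =
        Spec.map (CommRingCat.ofHom ψ.toRingHom) ≫ j := congrArg Subtype.val h
    have h2 := (cancel_mono j).mp h1
    have h3 := Spec.map_injective h2
    have h4 : φ.toRingHom = ψ.toRingHom := congrArg CommRingCat.Hom.hom h3
    exact AlgHom.ext fun r => RingHom.congr_fun h4 r
  have pt_comp : ∀ (A A' : Type u) [CommRing A] [Algebra k A] [CommRing A'] [Algebra k A']
      (χ : A →ₐ[k] A') (φ : R →ₐ[k] A),
      postComp (pt A φ) (specHomOver k χ) = pt A' (χ.comp φ) := by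
    intro A A' _ _ _ _ χ φ
    apply Subtype.ext
    show Spec.map (CommRingCat.ofHom χ.toRingHom) ≫
      (Spec.map (CommRingCat.ofHom φ.toRingHom) ≫ j) =
      Spec.map (CommRingCat.ofHom (χ.comp φ).toRingHom) ≫ j
    rw [← Category.assoc, ← Spec.map_comp, ← CommRingCat.ofHom_comp]
    rfl
  have pt_x : pt k x = zeroPt D := Subtype.ext hz
  refine finrank_pointDer_of_dat x Ch.x Ch.y Ch.e Ch.isCurveChart (hTw Ch.B₀ Ch.B₁ Ch.B₀₁)
    (fun A _ _ φ G => Corr Ch A (hrep.poincare.pullbackAlong (pt A φ)).L G) ?_ ?_ ?_ ?_ ?_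
  · -- P1
    intro A _ _ φ
    exact h1 A (pt A φ)
  · -- P3
    intro A _ _ φ ψ G G' hG hG'
    rw [← h3 A (pt A φ) (pt A ψ) G G' hG hG']
    exact ⟨fun h => by rw [h], pt_inj A φ ψ⟩
  · -- P4
    intro A A' _ _ _ _ χ φ G G' hG hbc
    have := h4 A A' χ (pt A φ) G G' hG hbc
    rwa [pt_comp] at this
  · -- P5
    show Corr Ch k (hrep.poincare.pullbackAlong (pt k x)).L _
    rw [pt_x]
    exact h5
  · -- P2
    intro G hrig hdeg hred
    obtain ⟨t, ht⟩ := h2 _ G hrig hdeg
    have hunit := h4 _ _ (augHom k k) t G _ ht hred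
    have ht0 : postComp t (specHomOver k (augHom k k)) = zeroPt D :=
      (h3 k _ _ _ _ hunit h5).mpr (H265.isIso_refl _)
    have ht0' : Spec.map (CommRingCat.ofHom (augHom k k).toRingHom) ≫ t.1 =
        Spec.map (CommRingCat.ofHom x.toRingHom) ≫ j := by
      rw [hz]
      exact congrArg Subtype.val ht0
    obtain ⟨φ, hφ, hφx⟩ := hLoc D.toBase R j hj x (TrivSqZeroExt k k) (augHom k k)
      (augHom_ker_nil k) t ht0'
    refine ⟨φ, hφx, ?_⟩
    have : t = pt _ φ := Subtype.ext hφ
    show Corr Ch _ (hrep.poincare.pullbackAlong (pt _ φ)).L G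
    rw [← this]
    exact ht

end Glue

end

end Fermat.Agent.S27.Dim
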