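import Fermat.Agent.S27.Dim.Spec

/-!
# Row S27, block DIM: the top glue (proved)

* `connectedSpace_of_geometricallyConnected` : geometrically connected over a field ⇒ connected.
* `main_of_tan` : `D1 + Tan ⇒ Main`.
-/

set_option autoImplicit false
set_option linter.style.haveILetI false
universe u
open CategoryTheory CategoryTheory.Limits AlgebraicGeometry AlgebraicGeometry.RelPicard
  NeronModelInfra GoodReductionJacobian
open scoped TensorProduct

namespace Fermat.Agent.S27.Dim

open Fermat.Agent.S25 Fermat.Agent.S27.H566

/-- A geometrically connected scheme over a field is connected. -/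
theorem connectedSpace_of_geometricallyConnected {k : Type u} [Field k] {J : Scheme.{u}}
    (f : J ⟶ Spec (CommRingCat.of k)) (hf : GeometricallyConnected f) : ConnectedSpace J := by
  have := hf
  have h := f.isConnected_preimage_singleton (IsLocalRing.closedPoint k)
  refine connectedSpace_iff_univ.mpr ?_
  convert h using 1
  ext p
  simp only [Set.mem_preimage, Set.mem_univ, true_iff]
  exact Subsingleton.elim _ _

/-- **DIM from D1 and TAN.** -/
theorem main_of_tan (k : Type u) [Field k] (hD1 : Stmt.D1 k) (hTan : Stmt.Tan k) :
    Stmt.Main k := by
  intro _ C c _ _ _ ε Ch D hrep hs hp hc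
  exact hD1 D.toBase _ hs (connectedSpace_of_geometricallyConnected D.toBase hc)
    (hTan c ε Ch D hrep hs hp hc)

end Fermat.Agent.S27.Dim
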